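import Mathlib
import Fermat.Agent.S41.H761.CosetSystem

/-!
# Row S59, cell NM, leaf HK2 — abstract coset-system lemmas (helper202)

Complements to `Fermat.Agent.S41.H761.IsCosetSystem`:

* `cosetSystem_sum` : the disjoint union of two coset systems with pairwise distinct cosets is a
  coset system; `cosetSystem_sum_transfer` : its transfer is the sum of the two transfers;
* `transfer_eq_of_le_of_card` : comparison of two coset systems by CARDINALITY (no transitivity of
  the action is needed);
* `rel_mul_inv_two` : the two-embedding version of `H761.rel_mul_inv`.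
-/

set_option autoImplicit false

namespace Fermat.Agent.S59.H202

open Fermat.Agent.S41.H761

section Abs

variable {𝒢 Γ Γ' : Type*} [Group 𝒢] [Group Γ] [Group Γ']
variable {I J : Type*}
variable {ι : Γ →* 𝒢} {ι' : Γ' →* 𝒢} {ρ₁ : I → 𝒢} {ρ₂ : J → 𝒢}

/-- The disjoint union of two coset systems whose cosets are pairwise distinct. -/
theorem cosetSystem_sum (h₁ : IsCosetSystem ι ι' ρ₁) (h₂ : IsCosetSystem ι ι' ρ₂)
    (hdis : ∀ (i : I) (j : J) (g : Γ), ρ₁ i ≠ ι g * ρ₂ j) :
    IsCosetSystem ι ι' (Sum.elim ρ₁ ρ₂) where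
  inj := h₁.inj
  exists_mul := by
    rintro (i | j) g'
    · exact ⟨Sum.inl (h₁.act i g'), h₁.coc i g', h₁.spec i g'⟩
    · exact ⟨Sum.inr (h₂.act j g'), h₂.coc j g', h₂.spec j g'⟩
  eq_of_mul := by
    rintro (i | j) (i' | j') g e
    · exact congrArg Sum.inl (h₁.eq_of_mul i i' g e)
    · exact absurd e (hdis i j' g)
    · exfalso
      refine hdis i' j g⁻¹ ?_
      have e' : ρ₂ j = ι g * ρ₁ i' := e
      rw [e', map_inv, inv_mul_cancel_left]
    · exact congrArg Sum.inr (h₂.eq_of_mul j j' g e)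

/-- The transfer of a disjoint union is the sum of the transfers. -/
theorem cosetSystem_sum_transfer [Fintype I] [Fintype J] {A : Type*} [AddCommGroup A]
    (h₁ : IsCosetSystem ι ι' ρ₁) (h₂ : IsCosetSystem ι ι' ρ₂)
    (hs : IsCosetSystem ι ι' (Sum.elim ρ₁ ρ₂)) (φ : Additive Γ →+ A) :
    hs.transfer φ = h₁.transfer φ + h₂.transfer φ := by
  refine AddMonoidHom.ext fun g' => ?_
  obtain ⟨g, rfl⟩ : ∃ g : Γ', Additive.ofMul g = g' := ⟨Additive.toMul g', rfl⟩
  rw [AddMonoidHom.add_apply, IsCosetSystem.transfer_apply, IsCosetSystem.transfer_apply,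
    IsCosetSystem.transfer_apply, Fintype.sum_sum_type]
  congr 1
  · refine Finset.sum_congr rfl fun i _ => ?_
    congr 2
    exact hs.coc_eq (i := Sum.inl i) (j := Sum.inl (h₁.act i g)) (h₁.spec i g)
  · refine Finset.sum_congr rfl fun j _ => ?_
    congr 2
    exact hs.coc_eq (i := Sum.inr j) (j := Sum.inr (h₂.act j g)) (h₂.spec j g)

/-- **Comparison by cardinality.**  Two coset systems such that every coset of the first is a
coset of the second, the second having at most as many cosets as the first, have the same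
transfer. -/
theorem transfer_eq_of_le_of_card [Fintype I] [Fintype J] {A : Type*} [AddCommGroup A]
    (h : IsCosetSystem ι ι' ρ₁) (h' : IsCosetSystem ι ι' ρ₂)
    (hle : ∀ i, ∃ (j : J) (g : Γ), ρ₁ i = ι g * ρ₂ j)
    (hcard : Fintype.card J ≤ Fintype.card I) (φ : Additive Γ →+ A) :
    h.transfer φ = h'.transfer φ := by
  classical
  choose e β hβ using hle
  have key : ∀ (i : I) (g' : Γ'), h'.act (e i) g' = e (h.act i g') ∧
      h'.coc (e i) g' = (β i)⁻¹ * h.coc i g' * β (h.act i g') := by
    intro i g'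
    apply h'.unique
    have h1 : ρ₂ (e i) = ι (β i)⁻¹ * ρ₁ i := by
      rw [hβ i, map_inv, inv_mul_cancel_left]
    rw [h1, mul_assoc, h.spec i g', hβ (h.act i g')]
    simp only [map_mul, map_inv, mul_assoc]
  have einj : Function.Injective e := by
    intro i i' hii
    apply h.eq_of_mul i i' (β i * (β i')⁻¹)
    rw [hβ i, hii, map_mul, map_inv, mul_assoc, hβ i', inv_mul_cancel_left]
  have ebij : Function.Bijective e :=
    (Fintype.bijective_iff_injective_and_card e).mpr
      ⟨einj, le_antisymm (Fintype.card_le_of_injective e einj) hcard⟩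
  let E : I ≃ J := Equiv.ofBijective e ebij
  refine AddMonoidHom.ext fun g' => ?_
  obtain ⟨g, rfl⟩ : ∃ g : Γ', Additive.ofMul g = g' := ⟨Additive.toMul g', rfl⟩
  rw [IsCosetSystem.transfer_apply, IsCosetSystem.transfer_apply, ← Equiv.sum_comp E]
  have hE : ∀ i, E i = e i := fun _ => rfl
  simp only [hE, (key _ g).2, ofMul_mul, ofMul_inv, map_add, map_neg, Finset.sum_add_distrib,
    Finset.sum_neg_distrib]
  have hperm : ∑ i, φ (Additive.ofMul (β (h.act i g))) = ∑ i, φ (Additive.ofMul (β i)) :=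
    Equiv.sum_comp (h.actEquiv g) (fun i => φ (Additive.ofMul (β i)))
  rw [hperm]
  abel

/-- From `d ι'(a) = ι(g) (d ι'(b))` to `d ι'(a b⁻¹) = ι(g) d`. -/
theorem rel_mul_inv_two {d : 𝒢} {a b : Γ'} {g : Γ}
    (e : d * ι' a = ι g * (d * ι' b)) : d * ι' (a * b⁻¹) = ι g * d := by
  rw [map_mul, map_inv, ← mul_assoc, e, mul_assoc, mul_assoc, mul_inv_cancel, mul_one]

end Abs

end Fermat.Agent.S59.H202
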