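import Mathlib
import Fermat.Agent.S41.Spec.HK
import Fermat.Agent.S41.H105.TransferRestrict

/-!
# Row S59, cell NM, leaf HK2 — indices at the second stage (helper202)

For `q` prime and `q ∣ M`, `M ≠ 0`:

* `index_range_incl_of_dvd` : `[Γ₀(M) : Γ₀(M q)] = q`;
* `index_range_conjDelta_of_dvd` : the range of `c_δ : Γ₀(M q) → Γ₀(M)`
  (`= {h ∈ Γ₀(M) | q ∣ h₀₁}`) has index `q` in `Γ₀(M)`.
-/

set_option autoImplicit false

namespace Fermat.Agent.S59.H202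

open CongruenceSubgroup Matrix.SpecialLinearGroup
open Fermat.Agent.S41.Spec
open scoped MatrixGroups

/-- `[Γ₀(M) : Γ₀(M q)] = q` for `q ∣ M`. -/
theorem index_range_incl_of_dvd {M q : ℕ} (hM : M ≠ 0) (hq : q.Prime) (hqM : q ∣ M) :
    (incl M q).range.index = q := by
  rw [Fermat.Agent.S41.H105.range_incl, Nat.mul_comm M q]
  exact Fermat.Agent.S20.Comb.relIndex_Gamma0_of_dvd q M hM hq hqM

/-- The `(0,1)` entry of `g⁻¹ * g'`. -/
theorem inv_mul_apply_zero_one (g g' : SL(2, ℤ)) :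
    (g⁻¹ * g') 0 1 = g 1 1 * g' 0 1 - g 0 1 * g' 1 1 := by
  rw [Matrix.SpecialLinearGroup.coe_mul, Matrix.SpecialLinearGroup.coe_inv,
    Matrix.adjugate_fin_two, Matrix.mul_apply, Fin.sum_univ_two]
  simp
  ring

/-- The matrix `[[1, t], [0, 1]]` in `SL(2, ℤ)`. -/
def upRep (t : ℤ) : SL(2, ℤ) := ⟨!![1, t; 0, 1], by simp [Matrix.det_fin_two]⟩

theorem upRep_apply_zero_one (t : ℤ) : upRep t 0 1 = t := rfl

theorem upRep_apply_one_one (t : ℤ) : upRep t 1 1 = 1 := rfl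

theorem upRep_apply_one_zero (t : ℤ) : upRep t 1 0 = 0 := rfl

theorem upRep_mem (M : ℕ) (t : ℤ) : upRep t ∈ Gamma0 M := by
  rw [Fermat.Agent.S20.Comb.mem_Gamma0_iff_dvd, upRep_apply_one_zero]
  exact dvd_zero _

/-- Coset criterion for `Γ₀(M) ⧸ range c_δ`. -/
theorem mk_conj_eq_iff (M : ℕ) {q : ℕ} (hq : q ≠ 0) (g g' : Gamma0 M) :
    (QuotientGroup.mk g : Gamma0 M ⧸ (conjDelta M q).range) = QuotientGroup.mk g' ↔
      (q : ℤ) ∣ ((g : SL(2, ℤ)) 1 1 * (g' : SL(2, ℤ)) 0 1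
        - (g : SL(2, ℤ)) 0 1 * (g' : SL(2, ℤ)) 1 1) := by
  rw [QuotientGroup.eq, Fermat.Agent.S41.H105.mem_range_conjDelta_iff M hq]
  simp only [Subgroup.coe_mul, Subgroup.coe_inv, inv_mul_apply_zero_one]

/-- For `g ∈ Γ₀(M)` with `q ∣ M`, the entry `g₁₁` is prime to `q`. -/
theorem d_ne_zero_of_dvd {M q : ℕ} (hq : q.Prime) (h : q ∣ M) (g : Gamma0 M) :
    ¬ (q : ℤ) ∣ (g : SL(2, ℤ)) 1 1 := by
  intro hd
  have hg := (Fermat.Agent.S20.Comb.mem_Gamma0_iff_dvd M _).mp g.2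
  have hqc : (q : ℤ) ∣ (g : SL(2, ℤ)) 1 0 := dvd_trans (by exact_mod_cast h) hg
  have hdet := (g : SL(2, ℤ)).det_coe
  rw [Matrix.det_fin_two] at hdet
  have h1 : (q : ℤ) ∣ 1 := by
    rw [← hdet]
    exact dvd_sub (dvd_mul_of_dvd_right hd _) (dvd_mul_of_dvd_right hqc _)
  have := Int.natCast_dvd_natCast.mp (by simpa using h1 : ((q : ℕ) : ℤ) ∣ ((1 : ℕ) : ℤ))
  exact hq.one_lt.ne' (Nat.dvd_one.mp this)

/-- The coset representative attached to `t : ZMod q`. -/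
noncomputable def conjRep (M q : ℕ) (t : ZMod q) : Gamma0 M ⧸ (conjDelta M q).range :=
  QuotientGroup.mk ⟨upRep (ZMod.cast t : ℤ), upRep_mem M _⟩

theorem conjRep_injective (M : ℕ) {q : ℕ} (hq : q.Prime) :
    Function.Injective (conjRep M q) := by
  have : Fact q.Prime := ⟨hq⟩
  intro t t' h
  simp only [conjRep] at h
  rw [mk_conj_eq_iff M hq.ne_zero] at h
  simp only [upRep_apply_zero_one, upRep_apply_one_one, one_mul, mul_one] at h
  have := (ZMod.intCast_zmod_eq_zero_iff_dvd _ q).mpr h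
  push_cast at this
  exact (sub_eq_zero.mp this).symm

theorem mem_range_conjRep {M q : ℕ} (hq : q.Prime) (hqM : q ∣ M) (g : Gamma0 M) :
    (QuotientGroup.mk g : Gamma0 M ⧸ (conjDelta M q).range) ∈ Set.range (conjRep M q) := by
  have : Fact q.Prime := ⟨hq⟩
  have hd : (((g : SL(2, ℤ)) 1 1 : ℤ) : ZMod q) ≠ 0 := by
    rw [Ne, ZMod.intCast_zmod_eq_zero_iff_dvd]
    exact d_ne_zero_of_dvd hq hqM g
  refine ⟨(((g : SL(2, ℤ)) 0 1 : ℤ) : ZMod q) * (((g : SL(2, ℤ)) 1 1 : ℤ) : ZMod q)⁻¹, ?_⟩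
  simp only [conjRep]
  rw [mk_conj_eq_iff M hq.ne_zero]
  simp only [upRep_apply_zero_one, upRep_apply_one_one, one_mul]
  rw [← ZMod.intCast_zmod_eq_zero_iff_dvd]
  push_cast
  rw [mul_assoc, inv_mul_cancel₀ hd, mul_one, sub_self]

/-- The range of `c_δ : Γ₀(M q) → Γ₀(M)` has index `q` if `q ∣ M`. -/
theorem index_range_conjDelta_of_dvd {M q : ℕ} (hq : q.Prime) (hqM : q ∣ M) :
    (conjDelta M q).range.index = q := by
  have hbij : Function.Bijective (conjRep M q) := by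
    refine ⟨conjRep_injective M hq, ?_⟩
    intro x
    obtain ⟨g, rfl⟩ := QuotientGroup.mk_surjective x
    exact mem_range_conjRep hq hqM g
  rw [Subgroup.index, ← Nat.card_eq_of_bijective _ hbij, Nat.card_zmod]

end Fermat.Agent.S59.H202
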