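import Mathlib
import Fermat.Agent.S59.NM.Spec
import Fermat.Agent.S41.H761.TRH
import Fermat.Agent.S59.H202.HK2Abs
import Fermat.Agent.S59.H202.HK2Index

/-!
# Row S59, cell NM, leaf HK2: the Betti relations of the second stage (helper202)

`hk2 : NM.HK2Statement` — for `q` prime, `q ∤ N`, `N ≠ 0`, on `X_n(A) = Hom(Γ₀(n), A)`:

* `r₂' r₁ = r₁' r₂`;
* `t₁' r₁' = q = t₂' r₂'`;
* `t₁' r₂' r₂ = r₂ T_q - r₁`;
* `t₂' r₁' r₁ = r₁ T_q - r₂`

(`r_i' = r_i (N q) q`, `t_i' = t_i (N q) q`).  Proof: coset systems of `S41/H761`, with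
`δ = diag(q, 1)`, `D = diag(1, q)`:

* `t₁' r₂' r₂` has the representatives `δ² γ⁻¹`, `γ ∈ Γ₀(N q) / Γ₀(N q²)`; `r₁` has the
  representative `D δ = q`; together these are the `q + 1` cosets `heckeRep x · δ` of `r₂ T_q`;
* `t₂' r₁' r₁` has the representatives `D γ⁻¹`, `γ ∈ Γ₀(N q) / c_δ Γ₀(N q²)`; `r₂` has the
  representative `δ`; together these are the `q + 1` cosets `heckeRep x` of `r₁ T_q`.
-/

set_option autoImplicit false

namespace Fermat.Agent.S59.H202

open CongruenceSubgroup Matrix.SpecialLinearGroup ModularForm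
open Fermat.Agent.S29.H642 Fermat.Agent.S41.Spec Fermat.Agent.S41.H761
open P2MW.S_ModularForm_heckeT_slash_eq_self_of_mem_Gamma0.ModularForm.HeckeSlashInvariance
open scoped MatrixGroups

section HK2

variable {N q : ℕ}

/-- The embedding of `Γ₀(N q)` through `Γ₀(N)` is the standard one. -/
theorem ιN_incl (g : Gamma0 (N * q)) : ιN N (incl N q g) = ιN (N * q) g := rfl

/-- `r₂' r₁ = r₁' r₂`. -/
theorem r2_r1_eq {A : Type*} [AddCommGroup A] (φ : Additive (Gamma0 N) →+ A) :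
    r₂ (N * q) q (r₁ N q φ) = r₁ (N * q) q (r₂ N q φ) := by
  refine AddMonoidHom.ext fun g' => ?_
  obtain ⟨g, rfl⟩ : ∃ g : Gamma0 (N * q * q), Additive.ofMul g = g' := ⟨Additive.toMul g', rfl⟩
  show φ (Additive.ofMul (incl N q (conjDelta (N * q) q g))) =
    φ (Additive.ofMul (conjDelta N q (incl (N * q) q g)))
  congr 2

variable [Fact q.Prime]

/-- `δ ι(g') = ι(c_δ g') δ` with the standard embedding of `Γ₀(N q)`. -/
theorem r2_rel_std (g' : Gamma0 (N * q)) :
    heckeRep q OnePoint.infty * ιN (N * q) g' =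
      ιN N (conjDelta N q g') * heckeRep q OnePoint.infty :=
  r2_rel g'

/-- `D ι(c_δ g') = ι(g') D`. -/
theorem r1_rel_std (g' : Gamma0 (N * q)) :
    heckeRep q ((0 : ZMod q) : OnePoint (ZMod q)) * ιN N (conjDelta N q g') =
      ιN (N * q) g' * heckeRep q ((0 : ZMod q) : OnePoint (ZMod q)) :=
  r1_rel g'

/-- `δ² ι(g'') = ι(c_δ c_δ' g'') δ²`. -/
theorem dd_rel (g : Gamma0 (N * q * q)) :
    heckeRep q OnePoint.infty * heckeRep q OnePoint.infty *
        ((ιN (N * q)).comp (incl (N * q) q)) g =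
      ιN N (((conjDelta N q).comp (conjDelta (N * q) q)) g) *
        (heckeRep q OnePoint.infty * heckeRep q OnePoint.infty) := by
  have h1 : heckeRep q OnePoint.infty * ((ιN (N * q)).comp (incl (N * q) q)) g =
      ιN (N * q) (conjDelta (N * q) q g) * heckeRep q OnePoint.infty := r2_rel g
  have h2 := r2_rel_std (N := N) (q := q) (conjDelta (N * q) q g)
  rw [mul_assoc, h1, ← mul_assoc, h2, mul_assoc]
  rfl

/-- `(D δ) ι(g') = ι(g') (D δ)` (`D δ = q` is a scalar). -/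
theorem Dd_rel (g' : Gamma0 (N * q)) :
    heckeRep q ((0 : ZMod q) : OnePoint (ZMod q)) * heckeRep q OnePoint.infty * ιN (N * q) g' =
      ιN N (incl N q g') *
        (heckeRep q ((0 : ZMod q) : OnePoint (ZMod q)) * heckeRep q OnePoint.infty) := by
  rw [mul_assoc, r2_rel_std, ← mul_assoc, r1_rel_std, mul_assoc]
  rfl

/-- `D ι(c_δ' g'') = ι(g'') D` at the second stage. -/
theorem D_rel (g : Gamma0 (N * q * q)) :
    heckeRep q ((0 : ZMod q) : OnePoint (ZMod q)) *
        ((ιN (N * q)).comp (conjDelta (N * q) q)) g =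
      ιN N (((incl N q).comp (incl (N * q) q)) g) *
        heckeRep q ((0 : ZMod q) : OnePoint (ZMod q)) :=
  r1_rel g

omit [Fact (Nat.Prime q)] in
/-- `1 · ι(g') = ι(g') · 1`. -/
theorem one_rel (g' : Gamma0 (N * q)) :
    (1 : GL (Fin 2) ℝ) * ιN (N * q) g' = ιN N (incl N q g') * 1 := by
  rw [one_mul, mul_one]
  rfl

/-! ### Distinctness of the cosets -/

omit [Fact (Nat.Prime q)] in
theorem mem_range_incl_iff_dvd (M : ℕ) (h : Gamma0 M) :
    h ∈ (incl M q).range ↔ ((M * q : ℕ) : ℤ) ∣ (h : SL(2, ℤ)) 1 0 := by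
  rw [Fermat.Agent.S41.H105.range_incl, Subgroup.mem_subgroupOf,
    Fermat.Agent.S20.Comb.mem_Gamma0_iff_dvd]

/-- Distinctness of the cosets `δ² γ⁻¹`, `γ ∈ Γ₀(N q) / Γ₀(N q²)`. -/
theorem prodA_S2 (x y : Gamma0 (N * q) ⧸ (incl (N * q) q).range) (g : Gamma0 N)
    (e : heckeRep q OnePoint.infty * heckeRep q OnePoint.infty * ιN (N * q) (x.out)⁻¹ =
      ιN N g * (heckeRep q OnePoint.infty * heckeRep q OnePoint.infty *
        ιN (N * q) (y.out)⁻¹)) : x = y := by
  have e2 := rel_mul_inv_two (ι := ιN N) (ι' := ιN (N * q)) e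
  have e10 := congrArg (fun M : GL (Fin 2) ℝ => (M : Matrix (Fin 2) (Fin 2) ℝ) 1 0) e2
  simp only [coe_mul_apply, coe_ιN_apply, coe_heckeRep_infty, Matrix.of_apply,
    Matrix.cons_val', Matrix.cons_val_zero, Matrix.cons_val_one, Matrix.cons_val_fin_one,
    zero_mul, one_mul, zero_add, mul_zero, add_zero, mul_one] at e10
  have e10' : (((x.out)⁻¹ * ((y.out)⁻¹)⁻¹ : Gamma0 (N * q)) : SL(2, ℤ)) 1 0 =
      (g : SL(2, ℤ)) 1 0 * (q * q) := by exact_mod_cast e10
  obtain ⟨k, hk⟩ := (Fermat.Agent.S20.Comb.mem_Gamma0_iff_dvd N _).mp g.2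
  have hmem : (x.out)⁻¹ * ((y.out)⁻¹)⁻¹ ∈ (incl (N * q) q).range := by
    refine (mem_range_incl_iff_dvd (N * q) _).mpr ?_
    rw [e10', hk]
    push_cast
    exact ⟨k, by ring⟩
  rw [inv_inv] at hmem
  have h3 := QuotientGroup.eq.mpr hmem
  rwa [QuotientGroup.out_eq', QuotientGroup.out_eq'] at h3

/-- The coset `q = D δ` is none of the cosets `δ² γ⁻¹`. -/
theorem disA (γ : Gamma0 (N * q)) (g : Gamma0 N) :
    heckeRep q OnePoint.infty * heckeRep q OnePoint.infty * ιN (N * q) γ ≠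
      ιN N g * (heckeRep q ((0 : ZMod q) : OnePoint (ZMod q)) * heckeRep q OnePoint.infty) := by
  intro e
  have hqp : q.Prime := Fact.out
  have e10 := congrArg (fun M : GL (Fin 2) ℝ => (M : Matrix (Fin 2) (Fin 2) ℝ) 1 0) e
  have e11 := congrArg (fun M : GL (Fin 2) ℝ => (M : Matrix (Fin 2) (Fin 2) ℝ) 1 1) e
  simp only [coe_mul_apply, coe_ιN_apply, coe_heckeRep_infty, coe_heckeRep_coe, ZMod.val_zero,
    Nat.cast_zero, Matrix.of_apply,
    Matrix.cons_val', Matrix.cons_val_zero, Matrix.cons_val_one, Matrix.cons_val_fin_one,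
    zero_mul, one_mul, zero_add, mul_zero, add_zero, mul_one] at e10 e11
  have e10' : (γ : SL(2, ℤ)) 1 0 = (g : SL(2, ℤ)) 1 0 * q := by exact_mod_cast e10
  have e11' : (γ : SL(2, ℤ)) 1 1 = (g : SL(2, ℤ)) 1 1 * q := by exact_mod_cast e11
  have hdet := (γ : SL(2, ℤ)).det_coe
  rw [Matrix.det_fin_two, e10', e11'] at hdet
  have h1 : (q : ℤ) ∣ 1 := by
    rw [← hdet]
    exact dvd_sub (dvd_mul_of_dvd_right (dvd_mul_left _ _) _)
      (dvd_mul_of_dvd_right (dvd_mul_left _ _) _)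
  have := Int.natCast_dvd_natCast.mp (by simpa using h1 : ((q : ℕ) : ℤ) ∣ ((1 : ℕ) : ℤ))
  exact hqp.one_lt.ne' (Nat.dvd_one.mp this)

/-- Distinctness of the cosets `heckeRep x · d`. -/
theorem prodB_S2 (d : GL (Fin 2) ℝ) (x y : OnePoint (ZMod q)) (g : Gamma0 N)
    (e : heckeRep q x * d = ιN N g * (heckeRep q y * d)) : x = y := by
  rw [← mul_assoc] at e
  have e2 := mul_right_cancel e
  rw [ιN_apply] at e2
  exact heckeRep_eq_of_mul e2

/-- Distinctness of the cosets `D γ⁻¹`, `γ ∈ Γ₀(N q) / c_δ Γ₀(N q²)`. -/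
theorem prodA'_S2 (x y : Gamma0 (N * q) ⧸ (conjDelta (N * q) q).range) (g : Gamma0 N)
    (e : heckeRep q ((0 : ZMod q) : OnePoint (ZMod q)) * ιN (N * q) (x.out)⁻¹ =
      ιN N g * (heckeRep q ((0 : ZMod q) : OnePoint (ZMod q)) *
        ιN (N * q) (y.out)⁻¹)) : x = y := by
  have hqp : q.Prime := Fact.out
  have e2 := rel_mul_inv_two (ι := ιN N) (ι' := ιN (N * q)) e
  have e01 := congrArg (fun M : GL (Fin 2) ℝ => (M : Matrix (Fin 2) (Fin 2) ℝ) 0 1) e2
  simp only [coe_mul_apply, coe_ιN_apply, coe_heckeRep_coe, ZMod.val_zero, Matrix.of_apply,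
    Matrix.cons_val', Matrix.cons_val_zero, Matrix.cons_val_one, Matrix.cons_val_fin_one,
    zero_mul, one_mul, zero_add, mul_zero, add_zero, Nat.cast_zero] at e01
  have e01' : (((x.out)⁻¹ * ((y.out)⁻¹)⁻¹ : Gamma0 (N * q)) : SL(2, ℤ)) 0 1 =
      (g : SL(2, ℤ)) 0 1 * q := by exact_mod_cast e01
  have hmem : (x.out)⁻¹ * ((y.out)⁻¹)⁻¹ ∈ (conjDelta (N * q) q).range :=
    (Fermat.Agent.S41.H105.mem_range_conjDelta_iff (N * q) hqp.ne_zero _).mpr
      ⟨(g : SL(2, ℤ)) 0 1, by rw [e01', mul_comm]⟩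
  rw [inv_inv] at hmem
  have h3 := QuotientGroup.eq.mpr hmem
  rwa [QuotientGroup.out_eq', QuotientGroup.out_eq'] at h3

/-- The coset `δ` is none of the cosets `D γ⁻¹`. -/
theorem disA' (γ : Gamma0 (N * q)) (g : Gamma0 N) :
    heckeRep q ((0 : ZMod q) : OnePoint (ZMod q)) * ιN (N * q) γ ≠
      ιN N g * heckeRep q OnePoint.infty := by
  intro e
  have hqp : q.Prime := Fact.out
  have e00 := congrArg (fun M : GL (Fin 2) ℝ => (M : Matrix (Fin 2) (Fin 2) ℝ) 0 0) e
  simp only [coe_mul_apply, coe_ιN_apply, coe_heckeRep_infty, coe_heckeRep_coe, ZMod.val_zero,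
    Nat.cast_zero, Matrix.of_apply,
    Matrix.cons_val', Matrix.cons_val_zero, Matrix.cons_val_one, Matrix.cons_val_fin_one,
    zero_mul, one_mul, zero_add, mul_zero, add_zero, mul_one] at e00
  have e00' : (γ : SL(2, ℤ)) 0 0 = (g : SL(2, ℤ)) 0 0 * q := by exact_mod_cast e00
  have hqc : (q : ℤ) ∣ (γ : SL(2, ℤ)) 1 0 := by
    have h := (Fermat.Agent.S20.Comb.mem_Gamma0_iff_dvd (N * q) _).mp γ.2
    exact dvd_trans (by push_cast; exact dvd_mul_left _ _) h
  have hdet := (γ : SL(2, ℤ)).det_coe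
  rw [Matrix.det_fin_two, e00'] at hdet
  have h1 : (q : ℤ) ∣ 1 := by
    rw [← hdet]
    exact dvd_sub (dvd_mul_of_dvd_left (dvd_mul_left _ _) _) (dvd_mul_of_dvd_right hqc _)
  have := Int.natCast_dvd_natCast.mp (by simpa using h1 : ((q : ℕ) : ℤ) ∣ ((1 : ℕ) : ℤ))
  exact hqp.one_lt.ne' (Nat.dvd_one.mp this)

/-! ### Cardinalities -/

theorem card_onePoint_zmod : Fintype.card (OnePoint (ZMod q)) = q + 1 := by
  have h : Fintype.card (OnePoint (ZMod q)) = Fintype.card (Option (ZMod q)) := rfl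
  rw [h, Fintype.card_option, ZMod.card]

variable {A : Type*} [AddCommGroup A]

/-! ### The relations -/

/-- `t₁' r₂' r₂ + r₁ = r₂ T_q`. -/
theorem t1_r2_r2 (hq : ¬ q ∣ N) (hN : N ≠ 0) (φ : Additive (Gamma0 N) →+ A) :
    t₁ (N * q) q (r₂ (N * q) q (r₂ N q φ)) + r₁ N q φ = r₂ N q (heckeTransfer hq φ) := by
  have hqp : q.Prime := Fact.out
  have hM : N * q ≠ 0 := Nat.mul_ne_zero hN hqp.ne_zero
  have hidx : (incl (N * q) q).range.index = q :=
    index_range_incl_of_dvd hM hqp (dvd_mul_left q N)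
  have : (incl (N * q) q).range.FiniteIndex := ⟨by rw [hidx]; exact hqp.ne_zero⟩
  let _ : Fintype (Gamma0 (N * q) ⧸ (incl (N * q) q).range) :=
    (incl (N * q) q).range.fintypeQuotientOfFiniteIndex
  -- the systems
  have hsA1 := IsCosetSystem.single (ι := ιN N) (ι' := (ιN (N * q)).comp (incl (N * q) q))
    (ιN_injective N) ((conjDelta N q).comp (conjDelta (N * q) q))
    (heckeRep q OnePoint.infty * heckeRep q OnePoint.infty) dd_rel
  have hsT := IsCosetSystem.ofTransfer (incl (N * q) q)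
    (Fermat.Agent.S41.H105.incl_injective (N * q) q) (ιN (N * q)) (ιN_injective (N * q))
  have hprodA := hsA1.prod hsT (fun _ _ x y g e => ⟨rfl, prodA_S2 x y g e⟩)
  have hsA2 := IsCosetSystem.single (ι := ιN N) (ι' := ιN (N * q)) (ιN_injective N)
    (incl N q) (heckeRep q ((0 : ZMod q) : OnePoint (ZMod q)) * heckeRep q OnePoint.infty)
    Dd_rel
  have hsA := cosetSystem_sum hprodA hsA2 (fun i _ g => disA _ g)
  have hsR2 := IsCosetSystem.single (ι := ιN N) (ι' := ιN (N * q)) (ιN_injective N)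
    (conjDelta N q) (heckeRep q OnePoint.infty) r2_rel_std
  have hprodB := (heckeSystem hq).prod hsR2
    (fun x y _ _ g e => ⟨prodB_S2 (heckeRep q OnePoint.infty) x y g e, rfl⟩)
  -- the three transfers
  have hL1 : t₁ (N * q) q (r₂ (N * q) q (r₂ N q φ)) = hprodA.transfer φ := by
    show transferAlong (incl (N * q) q) (r₂ (N * q) q (r₂ N q φ)) = _
    rw [transferAlong_eq (incl (N * q) q) (Fermat.Agent.S41.H105.incl_injective (N * q) q)
      (ιN (N * q)) (ιN_injective (N * q))]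
    have hr : r₂ (N * q) q (r₂ N q φ) = hsA1.transfer φ :=
      (IsCosetSystem.single_transfer (ι := ιN N) (ι' := (ιN (N * q)).comp (incl (N * q) q))
        (ιN_injective N) ((conjDelta N q).comp (conjDelta (N * q) q))
        (heckeRep q OnePoint.infty * heckeRep q OnePoint.infty) dd_rel φ).symm
    rw [hr, IsCosetSystem.transfer_comp hsA1 hsT hprodA]
  have hL2 : r₁ N q φ = hsA2.transfer φ :=
    (IsCosetSystem.single_transfer (ι := ιN N) (ι' := ιN (N * q)) (ιN_injective N)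
      (incl N q) (heckeRep q ((0 : ZMod q) : OnePoint (ZMod q)) * heckeRep q OnePoint.infty)
      Dd_rel φ).symm
  have hR : r₂ N q (heckeTransfer hq φ) = hprodB.transfer φ := by
    rw [heckeTransfer_eq_transfer, ← IsCosetSystem.transfer_comp (heckeSystem hq) hsR2 hprodB]
    exact (IsCosetSystem.single_transfer (ι := ιN N) (ι' := ιN (N * q)) (ιN_injective N)
      (conjDelta N q) (heckeRep q OnePoint.infty) r2_rel_std _).symm
  rw [hL1, hL2, ← cosetSystem_sum_transfer hprodA hsA2 hsA φ, hR]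
  refine transfer_eq_of_le_of_card hsA hprodB ?_ ?_ φ
  · rintro (⟨_, x⟩ | _)
    · refine ⟨(hPerm q ((conjDelta N q (x.out)⁻¹ : Gamma0 N) : SL(2, ℤ)) OnePoint.infty, ()),
        hElt hq (conjDelta N q (x.out)⁻¹) OnePoint.infty, ?_⟩
      show heckeRep q OnePoint.infty * heckeRep q OnePoint.infty * ιN (N * q) (x.out)⁻¹ =
        ιN N (hElt hq (conjDelta N q (x.out)⁻¹) OnePoint.infty) *
          (heckeRep q (hPerm q ((conjDelta N q (x.out)⁻¹ : Gamma0 N) : SL(2, ℤ))
            OnePoint.infty) * heckeRep q OnePoint.infty)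
      rw [mul_assoc, r2_rel_std, ← mul_assoc, heckeSystem_spec hq, mul_assoc]
    · refine ⟨(((0 : ZMod q) : OnePoint (ZMod q)), ()), 1, ?_⟩
      show heckeRep q ((0 : ZMod q) : OnePoint (ZMod q)) * heckeRep q OnePoint.infty =
        ιN N 1 * (heckeRep q ((0 : ZMod q) : OnePoint (ZMod q)) * heckeRep q OnePoint.infty)
      rw [map_one, one_mul]
  · have hc : Fintype.card (Gamma0 (N * q) ⧸ (incl (N * q) q).range) = q := by
      rw [← Nat.card_eq_fintype_card]
      exact hidx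
    rw [Fintype.card_prod, Fintype.card_sum, Fintype.card_prod, Fintype.card_unit, hc,
      card_onePoint_zmod]
    omega

/-- `t₂' r₁' r₁ + r₂ = r₁ T_q`. -/
theorem t2_r1_r1 (hq : ¬ q ∣ N) (φ : Additive (Gamma0 N) →+ A) :
    t₂ (N * q) q (r₁ (N * q) q (r₁ N q φ)) + r₂ N q φ = r₁ N q (heckeTransfer hq φ) := by
  have hqp : q.Prime := Fact.out
  have hidx : (conjDelta (N * q) q).range.index = q :=
    index_range_conjDelta_of_dvd hqp (dvd_mul_left q N)
  have : (conjDelta (N * q) q).range.FiniteIndex := ⟨by rw [hidx]; exact hqp.ne_zero⟩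
  let _ : Fintype (Gamma0 (N * q) ⧸ (conjDelta (N * q) q).range) :=
    (conjDelta (N * q) q).range.fintypeQuotientOfFiniteIndex
  have hinj := Fermat.Agent.S41.H105.conjDelta_injective (N * q) hqp.ne_zero
  -- the systems
  have hsA1 := IsCosetSystem.single (ι := ιN N) (ι' := (ιN (N * q)).comp (conjDelta (N * q) q))
    (ιN_injective N) ((incl N q).comp (incl (N * q) q))
    (heckeRep q ((0 : ZMod q) : OnePoint (ZMod q))) D_rel
  have hsT := IsCosetSystem.ofTransfer (conjDelta (N * q) q) hinj (ιN (N * q))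
    (ιN_injective (N * q))
  have hprodA := hsA1.prod hsT (fun _ _ x y g e => ⟨rfl, prodA'_S2 x y g e⟩)
  have hsA2 := IsCosetSystem.single (ι := ιN N) (ι' := ιN (N * q)) (ιN_injective N)
    (conjDelta N q) (heckeRep q OnePoint.infty) r2_rel_std
  have hsA := cosetSystem_sum hprodA hsA2 (fun i _ g => disA' _ g)
  have hsR1 := IsCosetSystem.single (ι := ιN N) (ι' := ιN (N * q)) (ιN_injective N)
    (incl N q) (1 : GL (Fin 2) ℝ) one_rel
  have hprodB := (heckeSystem hq).prod hsR1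
    (fun x y _ _ g e => ⟨prodB_S2 (1 : GL (Fin 2) ℝ) x y g e, rfl⟩)
  -- the three transfers
  have hL1 : t₂ (N * q) q (r₁ (N * q) q (r₁ N q φ)) = hprodA.transfer φ := by
    show transferAlong (conjDelta (N * q) q) (r₁ (N * q) q (r₁ N q φ)) = _
    rw [transferAlong_eq (conjDelta (N * q) q) hinj (ιN (N * q)) (ιN_injective (N * q))]
    have hr : r₁ (N * q) q (r₁ N q φ) = hsA1.transfer φ :=
      (IsCosetSystem.single_transfer (ι := ιN N)
        (ι' := (ιN (N * q)).comp (conjDelta (N * q) q))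
        (ιN_injective N) ((incl N q).comp (incl (N * q) q))
        (heckeRep q ((0 : ZMod q) : OnePoint (ZMod q))) D_rel φ).symm
    rw [hr, IsCosetSystem.transfer_comp hsA1 hsT hprodA]
  have hL2 : r₂ N q φ = hsA2.transfer φ :=
    (IsCosetSystem.single_transfer (ι := ιN N) (ι' := ιN (N * q)) (ιN_injective N)
      (conjDelta N q) (heckeRep q OnePoint.infty) r2_rel_std φ).symm
  have hR : r₁ N q (heckeTransfer hq φ) = hprodB.transfer φ := by
    rw [heckeTransfer_eq_transfer, ← IsCosetSystem.transfer_comp (heckeSystem hq) hsR1 hprodB]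
    exact (IsCosetSystem.single_transfer (ι := ιN N) (ι' := ιN (N * q)) (ιN_injective N)
      (incl N q) (1 : GL (Fin 2) ℝ) one_rel _).symm
  rw [hL1, hL2, ← cosetSystem_sum_transfer hprodA hsA2 hsA φ, hR]
  refine transfer_eq_of_le_of_card hsA hprodB ?_ ?_ φ
  · rintro (⟨_, x⟩ | _)
    · refine ⟨(hPerm q ((incl N q (x.out)⁻¹ : Gamma0 N) : SL(2, ℤ))
          ((0 : ZMod q) : OnePoint (ZMod q)), ()),
        hElt hq (incl N q (x.out)⁻¹) ((0 : ZMod q) : OnePoint (ZMod q)), ?_⟩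
      show heckeRep q ((0 : ZMod q) : OnePoint (ZMod q)) * ιN (N * q) (x.out)⁻¹ =
        ιN N (hElt hq (incl N q (x.out)⁻¹) ((0 : ZMod q) : OnePoint (ZMod q))) *
          (heckeRep q (hPerm q ((incl N q (x.out)⁻¹ : Gamma0 N) : SL(2, ℤ))
            ((0 : ZMod q) : OnePoint (ZMod q))) * 1)
      rw [mul_one, ← ιN_incl, heckeSystem_spec hq]
    · refine ⟨(OnePoint.infty, ()), 1, ?_⟩
      show heckeRep q OnePoint.infty = ιN N 1 * (heckeRep q OnePoint.infty * 1)
      rw [map_one, one_mul, mul_one]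
  · have hc : Fintype.card (Gamma0 (N * q) ⧸ (conjDelta (N * q) q).range) = q := by
      rw [← Nat.card_eq_fintype_card]
      exact hidx
    rw [Fintype.card_prod, Fintype.card_sum, Fintype.card_prod, Fintype.card_unit, hc,
      card_onePoint_zmod]
    omega

/-- `t₁' r₁' = q`. -/
theorem t1_r1_stage2 (hN : N ≠ 0) (ψ : Additive (Gamma0 (N * q)) →+ A) :
    t₁ (N * q) q (r₁ (N * q) q ψ) = q • ψ := by
  have hqp : q.Prime := Fact.out
  have hM : N * q ≠ 0 := Nat.mul_ne_zero hN hqp.ne_zero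
  have hidx : (incl (N * q) q).range.index = q :=
    index_range_incl_of_dvd hM hqp (dvd_mul_left q N)
  have hf : (incl (N * q) q).range.FiniteIndex := ⟨by rw [hidx]; exact hqp.ne_zero⟩
  show transferAlong (incl (N * q) q) (ψ.comp (MonoidHom.toAdditive (incl (N * q) q))) = q • ψ
  rw [Fermat.Agent.S41.H105.transferAlong_comp (incl (N * q) q)
    (Fermat.Agent.S41.H105.incl_injective (N * q) q) hf ψ, hidx]

/-- `t₂' r₂' = q`. -/
theorem t2_r2_stage2 (ψ : Additive (Gamma0 (N * q)) →+ A) :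
    t₂ (N * q) q (r₂ (N * q) q ψ) = q • ψ := by
  have hqp : q.Prime := Fact.out
  have hidx : (conjDelta (N * q) q).range.index = q :=
    index_range_conjDelta_of_dvd hqp (dvd_mul_left q N)
  have hf : (conjDelta (N * q) q).range.FiniteIndex := ⟨by rw [hidx]; exact hqp.ne_zero⟩
  show transferAlong (conjDelta (N * q) q)
    (ψ.comp (MonoidHom.toAdditive (conjDelta (N * q) q))) = q • ψ
  rw [Fermat.Agent.S41.H105.transferAlong_comp (conjDelta (N * q) q)
    (Fermat.Agent.S41.H105.conjDelta_injective (N * q) hqp.ne_zero) hf ψ, hidx]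

end HK2

/-- **Leaf HK2 of cell NM (row S59)**: the Betti relations of the second stage. -/
theorem hk2 : Fermat.Agent.S59.NM.HK2Statement := by
  intro N q _ hq hN A _
  refine ⟨fun φ => ⟨r2_r1_eq φ, ?_, ?_⟩, fun ψ => ⟨t1_r1_stage2 hN ψ, t2_r2_stage2 ψ⟩⟩
  · rw [← t1_r2_r2 hq hN φ, add_sub_cancel_right]
  · rw [← t2_r1_r1 hq φ, add_sub_cancel_right]

end Fermat.Agent.S59.H202
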